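/-
S41lib / ASM / Main (helper7): assembly of the level-raising theorem S41 from the bricks

* `SK.level_raising_family` (abstract skeleton + Deligne–Serre lifting),
* `BR.*` (lattices, Hecke operators, `newV`, bridge),
* `IH.ihara` + `TREE.cspBrick` (Ihara's lemma),
* `NE.exists_good_prime_not_eisenstein` (non-Eisenstein prime),
* `NEW.s41_conclusion_of_mem_newSub` (endgame on forms),

with the form package (PD) and the mod `p` eigenclass (X2 + X3) as explicit hypotheses.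
-/
import Mathlib
import Fermat.Agent.S41lib.SK.Family
import Fermat.Agent.S41lib.BR.NewVec
import Fermat.Agent.S41lib.IH.Main
import Fermat.Agent.S41lib.TREE.CspBrick
import Fermat.Agent.S41lib.NE.Main
import Fermat.Agent.S41lib.NEW.Main

set_option autoImplicit false
set_option linter.unusedSectionVars false
set_option linter.style.haveILetI false

noncomputable section

namespace Fermat.Agent.S41lib.ASM

open CongruenceSubgroup ModularCurve ModularCurve.Period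
open WeierstrassCurve WeierstrassCurve.Affine WeierstrassCurve.Affine.Point
open Fermat.Agent.S41lib.HC Fermat.Agent.S16lib.LG Fermat.Agent.S41lib.BR
open scoped MatrixGroups

/-- **Level raising, assembled.**  The hypotheses `ΦA … hperfB` are the form package (block PD),
`ε x₁ …` the mod `p` eigenclass attached to `f` (bricks X2 + X3). -/
theorem level_raising
    (E : WeierstrassCurve ℚ) [E.IsElliptic] {W : WeierstrassCurve ℤ} (hW : W.IsIntegralModelOf E)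
    {p N q : ℕ} [NeZero N] [Fact q.Prime] (hp : p.Prime) (hp2 : p ≠ 2) (hqN : ¬ q ∣ N)
    (hqp : q ≠ p)
    (hirr : GaloisRepIsIrreducible (K := AlgebraicClosure ℚ) ℚ E p)
    (x y : ℤ) (h : (q : ℤ) * x * 1 - (N : ℤ) * y * 1 = 1)
    -- the form package
    (ΦA : LinearMap.BilinForm ℤ (↥(VZ (Gamma0 N)) × ↥(VZ (Gamma0 N))))
    (ΦB : LinearMap.BilinForm ℤ ↥(VZ (Gamma0 (N * q))))
    (hadj : ∀ a b, ΦB (alphaL hqN a) b = ΦA a (betaL hqN x y 1 1 h b))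
    (hsaB : ∀ (ℓ : ℕ) (hℓ : ℓ.Prime) (hℓNq : ¬ ℓ ∣ N * q) (b b' : ↥(VZ (Gamma0 (N * q)))),
      ΦB (tL hℓ hℓNq b) b' = ΦB b (tL hℓ hℓNq b'))
    (hndA : ∀ a₀, (∀ a, ΦA a a₀ = 0) → a₀ = 0)
    (hndB : ΦB.Nondegenerate) (hreflB : ΦB.IsRefl)
    (hperfB : ∀ y : ↥(VZ (Gamma0 (N * q))), (∀ b', (p : ℤ) ∣ ΦB b' y) → ∃ y', y = (p : ℤ) • y')
    -- the mod `p` eigenclass
    (ε : ℤ) (x₁ : ↥(VZ (Gamma0 N))) (hε : ε = 1 ∨ ε = -1)
    (hx₁ : ¬ ∃ x' : ↥(VZ (Gamma0 N)), x₁ = (p : ℤ) • x')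
    (hx₁T : ∀ (ℓ : ℕ) (hℓ : ℓ.Prime) (hℓN : ¬ ℓ ∣ N), W.IsGoodPrimeFor ℓ → ℓ ≠ p →
      ∃ x' : ↥(VZ (Gamma0 N)), tL hℓ hℓN x₁ - (W.apOfModel ℓ) • x₁ = (p : ℤ) • x')
    (hx₁q : ∃ x' : ↥(VZ (Gamma0 N)),
      tL (Fact.out : q.Prime) hqN x₁ - (ε * ((q : ℤ) + 1)) • x₁ = (p : ℤ) • x') :
    ∃ (g : CuspForm (Gamma0 (N * q)) 2) (𝔪' : Ideal (integralClosure ℤ ℂ)),
      g.IsNormalizedEigenform ∧ 𝔪'.IsMaximal ∧ (p : integralClosure ℤ ℂ) ∈ 𝔪' ∧
      (∀ ℓ : ℕ, ℓ.Prime → W.IsGoodPrimeFor ℓ → ¬ ℓ ∣ N * q → ℓ ≠ p →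
        ∃ a : integralClosure ℤ ℂ, (a : ℂ) = ModularFormClass.qCoeff g ℓ ∧
          a - ((W.apOfModel ℓ : ℤ) : integralClosure ℤ ℂ) ∈ 𝔪') ∧
      g.IsNewAt q := by
  classical
  haveI : Fact p.Prime := ⟨hp⟩
  haveI hNq : NeZero (N * q) := neZero_mul N q
  have hq : q.Prime := Fact.out
  -- the index set of Hecke operators
  let ι : Type := {ℓ : ℕ // ℓ.Prime ∧ W.IsGoodPrimeFor ℓ ∧ ¬ ℓ ∣ N * q ∧ ℓ ≠ p}
  let pr : ι → ℕ := Subtype.val
  have hprime : ∀ i : ι, (pr i).Prime := fun i => i.2.1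
  have hprNq : ∀ i : ι, ¬ pr i ∣ N * q := fun i => i.2.2.2.1
  have hprN : ∀ i : ι, ¬ pr i ∣ N := fun i hd => hprNq i (Dvd.dvd.mul_right hd q)
  -- the non-Eisenstein prime
  obtain ⟨ℓ₀, hℓ₀, hℓ₀S, hℓ₀p, hℓ₀good, hℓ₀ne⟩ :=
    Fermat.Agent.S41lib.NE.exists_good_prime_not_eisenstein E hW hp hp2 hirr (N * q).primeFactors
  have hℓ₀Nq : ¬ ℓ₀ ∣ N * q := fun hd =>
    hℓ₀S (Nat.mem_primeFactors.mpr ⟨hℓ₀, hd, NeZero.ne (N * q)⟩)
  let i₀ : ι := ⟨ℓ₀, hℓ₀, hℓ₀good, hℓ₀Nq, hℓ₀p⟩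
  haveI : Fact ℓ₀.Prime := ⟨hℓ₀⟩
  -- commutation data
  have hcA : ∀ i j : ι, Commute (tLL (hprime i) (hprN i)) (tLL (hprime j) (hprN j)) :=
    fun i j => tLL_comm (hprime i) (hprN i) (hprime j) (hprN j)
  have hcB : ∀ i j : ι, Commute (tL (hprime i) (hprNq i)) (tL (hprime j) (hprNq j)) :=
    fun i j => tL_comm (hprime i) (hprNq i) (hprime j) (hprNq j)
  have hcV : ∀ i j : ι, Commute (tV hqN x y 1 1 h (hprime i) (hprNq i))
      (tV hqN x y 1 1 h (hprime j) (hprNq j)) :=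
    fun i j => tV_comm hqN x y 1 1 h (hprime i) (hprNq i) (hprime j) (hprNq j)
  -- the congruence-subgroup brick
  have hcsp : IH.CSPBrick (N := N) hqN p := TREE.cspBrick hqN hp2 hqp
  -- the vector `x = (x₁, -ε x₁)`
  obtain ⟨xq, hxq⟩ := hx₁q
  have hε2 : ε * ε = 1 := by rcases hε with rfl | rfl <;> norm_num
  have hTq : tL hq hqN x₁ = (ε * ((q : ℤ) + 1)) • x₁ + (p : ℤ) • xq := by
    rw [← hxq]; abel
  obtain ⟨lam, 𝔪', v, hmax', hp𝔪', hlam, hv0, heig⟩ :=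
    SK.level_raising_family (p := p)
      (fun i : ι => tLL (hprime i) (hprN i)) (fun i : ι => tL (hprime i) (hprNq i))
      (fun i : ι => tV hqN x y 1 1 h (hprime i) (hprNq i)) hcA hcB hcV
      (fun i => tV_isIntegral hqN x y 1 1 h (hprime i) (hprNq i))
      (alphaL hqN) (betaL hqN x y 1 1 h)
      (fun i a => alphaL_tLL hqN (hprime i) (hprN i) (hprNq i) a)
      (fun i b => betaL_tL hqN x y 1 1 h (hprime i) (hprN i) (hprNq i) b)
      ΦA ΦB hadj (fun i b b' => hsaB (pr i) (hprime i) (hprNq i) b b') hndA hndB hreflB hperfB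
      (fun i : ι => W.apOfModel (pr i)) i₀ ((ℓ₀ : ℤ) + 1)
      (by
        intro hdvd
        apply hℓ₀ne
        have e : W.apOfModel ℓ₀ - (1 + (ℓ₀ : ℤ)) = W.apOfModel ℓ₀ - ((ℓ₀ : ℤ) + 1) := by ring
        rw [e]
        exact hdvd)
      (by
        -- Ihara's lemma
        rintro ⟨a₁, a₂⟩ ⟨b, hb⟩
        have hker : ∃ b' : H (Gamma0 (N * q)) ℤ,
            res N q ℤ a₁.1 + deg hqN ℤ a₂.1 = (p : ℤ) • b' := by
          refine ⟨b.1, ?_⟩
          have := congrArg Subtype.val hb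
          simpa using this
        obtain ⟨⟨a₁', ha₁', h1⟩, ⟨a₂', ha₂', h2⟩⟩ :=
          IH.ihara hqN (hprN i₀) hcsp a₁.1 a₂.1 a₁.2 a₂.2 hker
        refine ⟨(⟨a₁', ha₁'⟩, ⟨a₂', ha₂'⟩), ?_⟩
        refine Prod.ext (Subtype.ext ?_) (Subtype.ext ?_)
        · simpa using h1
        · simpa using h2)
      ((x₁, -(ε • x₁)) : ↥(VZ (Gamma0 N)) × ↥(VZ (Gamma0 N)))
      (by
        rintro ⟨⟨a, b⟩, hab⟩
        exact hx₁ ⟨a, congrArg Prod.fst hab⟩)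
      (by
        intro i
        obtain ⟨x', hx'⟩ := hx₁T (pr i) (hprime i) (hprN i) i.2.2.1 i.2.2.2.2
        refine ⟨(x', -(ε • x')), ?_⟩
        refine Prod.ext ?_ ?_
        · simpa using hx'
        · simp only [tLL_apply, Prod.snd_sub, map_neg, map_zsmul, Prod.smul_mk]
          have e : tL (hprime i) (hprN i) x₁ = W.apOfModel (pr i) • x₁ + (p : ℤ) • x' := by
            rw [← hx']; abel
          rw [e]
          simp only [smul_add, smul_neg]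
          rw [smul_comm ε (W.apOfModel (pr i)) x₁, smul_comm ε (p : ℤ) x']
          abel)
      (by
        refine ⟨(-(ε • xq), xq), ?_⟩
        rw [betaL_alphaL]
        refine Prod.ext ?_ ?_
        · simp only [map_neg, map_zsmul, Prod.smul_mk]
          rw [hTq]
          simp only [smul_add, smul_smul, smul_neg, neg_add]
          rw [show ε * (ε * ((q : ℤ) + 1)) = (q : ℤ) + 1 by rw [← mul_assoc, hε2, one_mul],
            mul_comm ε (p : ℤ)]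
          abel
        · simp only [Prod.smul_mk, smul_neg]
          rw [hTq, smul_smul, mul_comm ((q : ℤ) + 1) ε]
          abel)
      (BR.hbridge hqN x y 1 1 h pr hprime hprNq hcB hcV)
  -- pass to forms
  obtain ⟨f', hf'new, hf'0, hf'T⟩ :=
    exists_newSub_eigen hqN x y 1 1 h pr hprime hprNq
      (fun i => ((lam i : integralClosure ℤ ℂ) : ℂ)) v hv0 heig
  -- extend `lam` to all of `ℕ`
  let lamN : ℕ → integralClosure ℤ ℂ := fun ℓ =>
    if hℓ : ℓ.Prime ∧ W.IsGoodPrimeFor ℓ ∧ ¬ ℓ ∣ N * q ∧ ℓ ≠ p then lam ⟨ℓ, hℓ⟩ else 0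
  have hlamN : ∀ i : ι, lamN (pr i) = lam i := fun i => dif_pos i.2
  refine Fermat.Agent.S41lib.NEW.s41_conclusion_of_mem_newSub x y 1 1 h W p lamN 𝔪' hmax' hp𝔪'
    ?_ f' hf'0 hf'new ?_
  · intro ℓ hℓ hgood hℓM hℓp
    have := hlam ⟨ℓ, hℓ, hgood, hℓM, hℓp⟩
    rw [← hlamN ⟨ℓ, hℓ, hgood, hℓM, hℓp⟩] at this
    exact this
  · intro ℓ hℓ hℓM hgood hℓp
    have := hf'T ⟨ℓ, hℓ, hgood, hℓM, hℓp⟩
    rw [← hlamN ⟨ℓ, hℓ, hgood, hℓM, hℓp⟩] at this
    exact this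

end Fermat.Agent.S41lib.ASM
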