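/-
S41lib / ASM / Final (helper7): S41 from the Atkin–Lehner isometry (block PD4) and the mod `p`
eigenclass (bricks X2 + X3): the form package of `ASM.level_raising` is discharged with block PD.
-/
import Mathlib
import Fermat.Agent.S41lib.ASM.Main
import Fermat.Agent.S41lib.PD.Assembly

set_option autoImplicit false
set_option linter.unusedSectionVars false
set_option linter.style.haveILetI false

noncomputable section

namespace Fermat.Agent.S41lib.ASM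

open CongruenceSubgroup ModularCurve ModularCurve.Period
open WeierstrassCurve WeierstrassCurve.Affine WeierstrassCurve.Affine.Point
open Fermat.Agent.S41lib.HC Fermat.Agent.S16lib.LG Fermat.Agent.S41lib.BR
open scoped MatrixGroups

/-- **S41 from the Atkin–Lehner isometry and the mod `p` eigenclass.** -/
theorem s41_of_alIsometry (hAL : PD.ALIsometry)
    (E : WeierstrassCurve ℚ) [E.IsElliptic] {W : WeierstrassCurve ℤ} (hW : W.IsIntegralModelOf E)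
    {p N q : ℕ} [NeZero N] [Fact q.Prime] (hp : p.Prime) (hp2 : p ≠ 2) (hqN : ¬ q ∣ N)
    (hqp : q ≠ p)
    (hirr : GaloisRepIsIrreducible (K := AlgebraicClosure ℚ) ℚ E p)
    (hclass : ∃ (ε : ℤ) (x₁ : ↥(VZ (Gamma0 N))), (ε = 1 ∨ ε = -1) ∧
      (¬ ∃ x' : ↥(VZ (Gamma0 N)), x₁ = (p : ℤ) • x') ∧
      (∀ (ℓ : ℕ) (hℓ : ℓ.Prime) (hℓN : ¬ ℓ ∣ N), W.IsGoodPrimeFor ℓ → ℓ ≠ p →
        ∃ x' : ↥(VZ (Gamma0 N)), tL hℓ hℓN x₁ - (W.apOfModel ℓ) • x₁ = (p : ℤ) • x') ∧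
      (∃ x' : ↥(VZ (Gamma0 N)),
        tL (Fact.out : q.Prime) hqN x₁ - (ε * ((q : ℤ) + 1)) • x₁ = (p : ℤ) • x')) :
    ∃ (g : CuspForm (Gamma0 (N * q)) 2) (𝔪' : Ideal (integralClosure ℤ ℂ)),
      g.IsNormalizedEigenform ∧ 𝔪'.IsMaximal ∧ (p : integralClosure ℤ ℂ) ∈ 𝔪' ∧
      (∀ ℓ : ℕ, ℓ.Prime → W.IsGoodPrimeFor ℓ → ¬ ℓ ∣ N * q → ℓ ≠ p →
        ∃ a : integralClosure ℤ ℂ, (a : ℂ) = ModularFormClass.qCoeff g ℓ ∧
          a - ((W.apOfModel ℓ : ℤ) : integralClosure ℤ ℂ) ∈ 𝔪') ∧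
      g.IsNewAt q := by
  haveI : Fact p.Prime := ⟨hp⟩
  haveI hNq : NeZero (N * q) := neZero_mul N q
  letI : Fintype (SL(2, ℤ) ⧸ Gamma0 N) := Fermat.Agent.ProgramR.Genus.cosetFintype N
  letI : Fintype (SL(2, ℤ) ⧸ Gamma0 (N * q)) := Fermat.Agent.ProgramR.Genus.cosetFintype (N * q)
  obtain ⟨x, y, h⟩ := Fermat.Agent.S41lib.NEW.exists_bezout (N := N) (q := q) hqN
  obtain ⟨ε, x₁, hε, hx₁, hx₁T, hx₁q⟩ := hclass
  exact level_raising E hW hp hp2 hqN hqp hirr x y h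
    (PD.formBil2 N) (PD.formBil (Gamma0 (N * q)) (PD.neg_one_mem_Gamma0 (N * q)))
    (fun a b => PD.hadj_of_alIsometry hAL hqN x y 1 1 h a b)
    (fun ℓ hℓ hℓNq b b' => PD.hsaB_of_alIsometry hAL hℓ hℓNq b b')
    (PD.formBil2_right_nondeg)
    (PD.formBil_nondegenerate)
    (PD.formBil_isRefl (PD.neg_one_mem_Gamma0 (N * q)))
    (fun y hy => PD.formBil_perfect hp2 y hy)
    ε x₁ hε hx₁ hx₁T hx₁q

end Fermat.Agent.S41lib.ASM
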